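import Fermat.Agent.S52.Spec.Main

/-!
# S52/Spec: the endomorphism of `k(T)` acting on the coefficients through `φ : k →+* k`
commutes with the specialisation at a point `c` fixed by `φ`.
-/

set_option autoImplicit false
set_option linter.unusedSectionVars false

namespace Fermat.Agent.S52.Spec

open Polynomial WeierstrassCurve

variable {k : Type*} [Field k]

/-- the endomorphism of `k(T)` induced by `φ` on the coefficients (`T ↦ T`). -/
noncomputable def coeffHom (φ : k →+* k) : RatFunc k →+* RatFunc k :=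
  RatFunc.mapRingHom (Polynomial.mapRingHom φ)
    (nonZeroDivisors_le_comap_nonZeroDivisors_of_injective _
      (Polynomial.map_injective φ φ.injective))

theorem coeffHom_div (φ : k →+* k) (p q : k[X]) :
    coeffHom φ (algebraMap k[X] (RatFunc k) p / algebraMap k[X] (RatFunc k) q) =
      algebraMap k[X] (RatFunc k) (p.map φ) / algebraMap k[X] (RatFunc k) (q.map φ) := by
  rw [coeffHom, RatFunc.coe_mapRingHom_eq_coe_map, RatFunc.map_apply_div]
  rfl

theorem coeffHom_algebraMap (φ : k →+* k) (p : k[X]) :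
    coeffHom φ (algebraMap k[X] (RatFunc k) p) = algebraMap k[X] (RatFunc k) (p.map φ) := by
  have := coeffHom_div φ p 1
  simpa using this

theorem eval_map_fixed (φ : k →+* k) {c : k} (hc : φ c = c) (p : k[X]) :
    (p.map φ).eval c = φ (p.eval c) := by
  conv_lhs => rw [← hc]
  rw [eval_map, eval₂_at_apply]

theorem regAt_coeffHom (φ : k →+* k) {c : k} (hc : φ c = c) {r : RatFunc k} (hr : RegAt c r) :
    RegAt c (coeffHom φ r) ∧ evalAt c (coeffHom φ r) = φ (evalAt c r) := by
  have e : coeffHom φ r = algebraMap k[X] (RatFunc k) (r.num.map φ) /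
      algebraMap k[X] (RatFunc k) (r.denom.map φ) := by
    conv_lhs => rw [← RatFunc.num_div_denom r]
    rw [coeffHom_div]
  have hq : (r.denom.map φ).eval c ≠ 0 := by
    rw [eval_map_fixed φ hc]
    exact (map_ne_zero φ).2 hr
  have := regAt_div c (r.num.map φ) (r.denom.map φ) hq
  rw [← e] at this
  refine ⟨this.1, ?_⟩
  rw [this.2, eval_map_fixed φ hc, eval_map_fixed φ hc, evalAt, map_div₀]

theorem not_regAt_coeffHom (φ : k →+* k) {c : k} (hc : φ c = c) {r : RatFunc k}
    (hr : ¬ RegAt c r) : ¬ RegAt c (coeffHom φ r) := by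
  intro hreg
  have hnum := num_eval_ne_zero_of_not_regAt hr
  have hd : r.denom.eval c = 0 := by
    by_contra h; exact hr h
  obtain ⟨h1, h2⟩ := regAt_inv_of_num hnum
  rw [hd, zero_div] at h2
  obtain ⟨h3, h4⟩ := regAt_coeffHom φ hc h1
  rw [h2, map_zero] at h4
  have hr0 : r ≠ 0 := by
    rintro rfl
    apply hr
    have := (regAt_algebraMap c (0 : k[X])).1
    simpa using this
  have h5 := (regAt_mul hreg h3).2
  rw [← map_mul, mul_inv_cancel₀ hr0, map_one, h4, mul_zero] at h5
  have h6 := (regAt_algebraMap c (1 : k[X])).2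
  rw [map_one, eval_one] at h6
  rw [h6] at h5
  exact one_ne_zero h5

variable [DecidableEq k] [DecidableEq (RatFunc k)]

theorem spec_coeffHom {A B : k[X]} {c a b : k} (ha : A.eval c = a) (hb : B.eval c = b)
    (hΔ : (shortW a b).Δ ≠ 0) (φ : k →+* k) (hc : φ c = c)
    (hA : coeffHom φ (algebraMap k[X] (RatFunc k) A) = algebraMap k[X] (RatFunc k) A)
    (hB : coeffHom φ (algebraMap k[X] (RatFunc k) B) = algebraMap k[X] (RatFunc k) B)
    (ha' : φ a = a) (hb' : φ b = b)
    (P : SPt (algebraMap k[X] (RatFunc k) A) (algebraMap k[X] (RatFunc k) B)) :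
    spec A B c ha hb hΔ (shortMap (coeffHom φ) hA hB P) =
      shortMap φ ha' hb' (spec A B c ha hb hΔ P) := by
  rcases P with _ | ⟨x, y, h⟩
  · change spec A B c ha hb hΔ (shortMap (coeffHom φ) hA hB 0) =
      shortMap φ ha' hb' (spec A B c ha hb hΔ 0)
    simp only [map_zero]
  rw [shortMap_some]
  by_cases hx : RegAt c x
  · have hy := regAt_y (c := c) h hx
    obtain ⟨h1, e1⟩ := spec_some ha hb hΔ h hx
    obtain ⟨h2, e2⟩ := spec_some ha hb hΔ (nonsingular_short_map (coeffHom φ) hA hB h)
      (regAt_coeffHom φ hc hx).1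
    rw [e1, e2, shortMap_some]
    simp only [(regAt_coeffHom φ hc hx).2, (regAt_coeffHom φ hc hy).2]
  · rw [spec_some_of_not_regAt ha hb hΔ h hx,
      spec_some_of_not_regAt ha hb hΔ _ (not_regAt_coeffHom φ hc hx), map_zero]

end Fermat.Agent.S52.Spec
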