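import Fermat.Agent.S52.Short

/-!
# S52/Spec: a uniform description of the sum of two affine points of `y² = x³ + A x + B`

`l` is "the slope" of `(x₁, y₁), (x₂, y₂)` iff `l (x₁ - x₂) = y₁ - y₂` and
`l (y₁ + y₂) = x₁² + x₁ x₂ + x₂² + A`.
-/

set_option autoImplicit false
set_option linter.unusedSectionVars false

namespace Fermat.Agent.S52.Spec

open WeierstrassCurve

variable {F : Type*} [Field F] [DecidableEq F] {A B : F}

theorem negY_short (x y : F) : (shortW A B).toAffine.negY x y = -y := by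
  simp [Affine.negY, shortW]

theorem neg_some_short {x y : F} (h : (shortW A B).toAffine.Nonsingular x y) :
    ∃ h', (-(Affine.Point.some x y h) : SPt A B) = Affine.Point.some x (-y) h' := by
  refine ⟨by have := (Affine.nonsingular_neg x y).2 h; rwa [negY_short] at this, ?_⟩
  rw [Affine.Point.neg_some]
  simp only [negY_short]

theorem slope_eq {x₁ y₁ x₂ y₂ l : F}
    (hne : ¬ (x₁ = x₂ ∧ y₁ = -y₂))
    (hl1 : l * (x₁ - x₂) = y₁ - y₂) (hl2 : l * (y₁ + y₂) = x₁ ^ 2 + x₁ * x₂ + x₂ ^ 2 + A) :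
    (shortW A B).toAffine.slope x₁ x₂ y₁ y₂ = l := by
  by_cases hx : x₁ = x₂
  · subst hx
    have hy : y₁ ≠ -y₂ := fun h => hne ⟨rfl, h⟩
    have hy12 : y₁ = y₂ := by
      have : y₁ - y₂ = 0 := by rw [← hl1]; ring
      exact sub_eq_zero.1 this
    subst hy12
    rw [Affine.slope_of_Y_ne rfl (by rw [negY_short]; exact hy), negY_short]
    have h2 : y₁ - -y₁ ≠ 0 := sub_ne_zero.2 hy
    rw [div_eq_iff h2]
    simp only [shortW]
    linear_combination -hl2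
  · rw [Affine.slope_of_X_ne hx, div_eq_iff (sub_ne_zero.2 hx)]
    exact hl1.symm

theorem exists_slope {x₁ y₁ x₂ y₂ : F}
    (h₁ : y₁ ^ 2 = x₁ ^ 3 + A * x₁ + B) (h₂ : y₂ ^ 2 = x₂ ^ 3 + A * x₂ + B)
    (hne : ¬ (x₁ = x₂ ∧ y₁ = -y₂)) :
    ∃ l : F, l * (x₁ - x₂) = y₁ - y₂ ∧ l * (y₁ + y₂) = x₁ ^ 2 + x₁ * x₂ + x₂ ^ 2 + A := by
  by_cases hx : x₁ = x₂
  · subst hx
    have hy : y₁ + y₂ ≠ 0 := fun h => hne ⟨rfl, eq_neg_of_add_eq_zero_left h⟩
    have hy12 : y₁ = y₂ := by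
      have : (y₁ - y₂) * (y₁ + y₂) = 0 := by linear_combination h₁ - h₂
      rcases mul_eq_zero.1 this with h | h
      · exact sub_eq_zero.1 h
      · exact absurd h hy
    subst hy12
    exact ⟨(x₁ ^ 2 + x₁ * x₁ + x₁ ^ 2 + A) / (y₁ + y₁), by ring, div_mul_cancel₀ _ hy⟩
  · have hx' : x₁ - x₂ ≠ 0 := sub_ne_zero.2 hx
    refine ⟨(y₁ - y₂) / (x₁ - x₂), by field_simp, ?_⟩
    rw [div_mul_eq_mul_div, div_eq_iff hx']
    linear_combination h₁ - h₂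

theorem add_some_of_slope {x₁ y₁ x₂ y₂ l : F}
    (h₁ : (shortW A B).toAffine.Nonsingular x₁ y₁) (h₂ : (shortW A B).toAffine.Nonsingular x₂ y₂)
    (hne : ¬ (x₁ = x₂ ∧ y₁ = -y₂))
    (hl1 : l * (x₁ - x₂) = y₁ - y₂) (hl2 : l * (y₁ + y₂) = x₁ ^ 2 + x₁ * x₂ + x₂ ^ 2 + A) :
    ∃ h₃, (Affine.Point.some x₁ y₁ h₁ + Affine.Point.some x₂ y₂ h₂ : SPt A B) =
      Affine.Point.some (l ^ 2 - x₁ - x₂) (-(l * (l ^ 2 - x₁ - x₂ - x₁) + y₁)) h₃ := by
  have hne' : ¬ (x₁ = x₂ ∧ y₁ = (shortW A B).toAffine.negY x₂ y₂) := by rwa [negY_short]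
  have hX : (shortW A B).toAffine.addX x₁ x₂ ((shortW A B).toAffine.slope x₁ x₂ y₁ y₂)
      = l ^ 2 - x₁ - x₂ := by
    rw [slope_eq hne hl1 hl2]
    simp [Affine.addX, shortW]
  have hY : (shortW A B).toAffine.addY x₁ x₂ y₁ ((shortW A B).toAffine.slope x₁ x₂ y₁ y₂)
      = -(l * (l ^ 2 - x₁ - x₂ - x₁) + y₁) := by
    rw [Affine.addY, negY_short, Affine.negAddY, hX, slope_eq hne hl1 hl2]
  have h3 := Affine.nonsingular_add h₁ h₂ hne'
  rw [hX, hY] at h3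
  refine ⟨h3, ?_⟩
  rw [Affine.Point.add_some hne']
  simp only [Affine.Point.some.injEq]
  exact ⟨hX, hY⟩

theorem add_eq_zero_of {x₁ y₁ x₂ y₂ : F}
    (h₁ : (shortW A B).toAffine.Nonsingular x₁ y₁) (h₂ : (shortW A B).toAffine.Nonsingular x₂ y₂)
    (hx : x₁ = x₂) (hy : y₁ = -y₂) :
    (Affine.Point.some x₁ y₁ h₁ + Affine.Point.some x₂ y₂ h₂ : SPt A B) = 0 :=
  Affine.Point.add_of_Y_eq hx (by rw [negY_short]; exact hy)

end Fermat.Agent.S52.Spec
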