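import Mathlib

/-!
# S52/Spec: the local ring of `k(T)` at `T = c` as a valuation subring, with the evaluation map
-/

set_option autoImplicit false
set_option linter.unusedSectionVars false

namespace Fermat.Agent.S52.Spec

open Polynomial

variable {k : Type*} [Field k]

/-- `r` has no pole at `c`. -/
def RegAt (c : k) (r : RatFunc k) : Prop := r.denom.eval c ≠ 0

/-- value of `r` at `c` (junk if `r` has a pole). -/
noncomputable def evalAt (c : k) (r : RatFunc k) : k := r.num.eval c / r.denom.eval c

theorem regAt_div (c : k) (p q : k[X]) (hq : q.eval c ≠ 0) :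
    RegAt c (algebraMap k[X] (RatFunc k) p / algebraMap k[X] (RatFunc k) q) ∧
      evalAt c (algebraMap k[X] (RatFunc k) p / algebraMap k[X] (RatFunc k) q)
        = p.eval c / q.eval c := by
  have hq0 : q ≠ 0 := by rintro rfl; simp at hq
  set r := algebraMap k[X] (RatFunc k) p / algebraMap k[X] (RatFunc k) q with hr
  have hd : r.denom.eval c ≠ 0 := by
    obtain ⟨e, he⟩ := RatFunc.denom_div_dvd p q
    intro h0
    apply hq
    rw [he, eval_mul, ← hr, h0, zero_mul]
  refine ⟨hd, ?_⟩
  have h1 : r.num * q = p * r.denom := (RatFunc.num_mul_eq_mul_denom_iff hq0).2 hr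
  have h2 := congrArg (eval c) h1
  rw [eval_mul, eval_mul] at h2
  rw [evalAt, div_eq_div_iff hd hq, h2]

theorem regAt_algebraMap (c : k) (p : k[X]) :
    RegAt c (algebraMap k[X] (RatFunc k) p) ∧
      evalAt c (algebraMap k[X] (RatFunc k) p) = p.eval c := by
  have := regAt_div c p 1 (by simp)
  simpa using this

theorem regAt_iff (c : k) (r : RatFunc k) : RegAt c r ↔ ∃ p q : k[X], q.eval c ≠ 0 ∧
    r = algebraMap k[X] (RatFunc k) p / algebraMap k[X] (RatFunc k) q := by
  constructor
  · intro h
    exact ⟨r.num, r.denom, h, (RatFunc.num_div_denom r).symm⟩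
  · rintro ⟨p, q, hq, rfl⟩
    exact (regAt_div c p q hq).1

theorem regAt_add {c : k} {r s : RatFunc k} (hr : RegAt c r) (hs : RegAt c s) :
    RegAt c (r + s) ∧ evalAt c (r + s) = evalAt c r + evalAt c s := by
  have hr0 : algebraMap k[X] (RatFunc k) r.denom ≠ 0 := by
    simpa using r.denom_ne_zero
  have hs0 : algebraMap k[X] (RatFunc k) s.denom ≠ 0 := by
    simpa using s.denom_ne_zero
  have e : r + s = algebraMap k[X] (RatFunc k) (r.num * s.denom + s.num * r.denom) /
      algebraMap k[X] (RatFunc k) (r.denom * s.denom) := by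
    conv_lhs => rw [← RatFunc.num_div_denom r, ← RatFunc.num_div_denom s]
    rw [div_add_div _ _ hr0 hs0]
    simp only [map_add, map_mul]
    ring
  have := regAt_div c (r.num * s.denom + s.num * r.denom) (r.denom * s.denom)
    (by rw [eval_mul]; exact mul_ne_zero hr hs)
  rw [← e] at this
  refine ⟨this.1, ?_⟩
  rw [this.2, evalAt, evalAt, div_add_div _ _ hr hs]
  simp only [eval_add, eval_mul]
  ring

theorem regAt_mul {c : k} {r s : RatFunc k} (hr : RegAt c r) (hs : RegAt c s) :
    RegAt c (r * s) ∧ evalAt c (r * s) = evalAt c r * evalAt c s := by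
  have e : r * s = algebraMap k[X] (RatFunc k) (r.num * s.num) /
      algebraMap k[X] (RatFunc k) (r.denom * s.denom) := by
    conv_lhs => rw [← RatFunc.num_div_denom r, ← RatFunc.num_div_denom s]
    rw [div_mul_div_comm]
    simp only [map_mul]
  have := regAt_div c (r.num * s.num) (r.denom * s.denom)
    (by rw [eval_mul]; exact mul_ne_zero hr hs)
  rw [← e] at this
  refine ⟨this.1, ?_⟩
  rw [this.2, evalAt, evalAt, div_mul_div_comm]
  simp only [eval_mul]

theorem regAt_neg {c : k} {r : RatFunc k} (hr : RegAt c r) :
    RegAt c (-r) ∧ evalAt c (-r) = -evalAt c r := by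
  have e : -r = algebraMap k[X] (RatFunc k) (-r.num) / algebraMap k[X] (RatFunc k) r.denom := by
    conv_lhs => rw [← RatFunc.num_div_denom r]
    rw [map_neg, neg_div]
  have := regAt_div c (-r.num) r.denom hr
  rw [← e] at this
  refine ⟨this.1, ?_⟩
  rw [this.2, evalAt, eval_neg, neg_div]

theorem regAt_inv_of_num {c : k} {r : RatFunc k} (hr : r.num.eval c ≠ 0) :
    RegAt c r⁻¹ ∧ evalAt c r⁻¹ = r.denom.eval c / r.num.eval c := by
  have e : r⁻¹ = algebraMap k[X] (RatFunc k) r.denom / algebraMap k[X] (RatFunc k) r.num := by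
    conv_lhs => rw [← RatFunc.num_div_denom r]
    rw [inv_div]
  have := regAt_div c r.denom r.num hr
  rwa [← e] at this

theorem num_eval_ne_zero_of_not_regAt {c : k} {r : RatFunc k} (hr : ¬ RegAt c r) :
    r.num.eval c ≠ 0 := by
  intro h0
  have hd : r.denom.eval c = 0 := by
    by_contra h; exact hr h
  obtain ⟨a, b, hab⟩ := RatFunc.isCoprime_num_denom r
  have := congrArg (eval c) hab
  simp [h0, hd] at this

/-- the local ring at `T = c`. -/
noncomputable def placeRing (c : k) : ValuationSubring (RatFunc k) where
  carrier := {r | RegAt c r}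
  mul_mem' := fun hr hs => (regAt_mul hr hs).1
  one_mem' := by
    have := (regAt_algebraMap c (1 : k[X])).1
    simpa using this
  add_mem' := fun hr hs => (regAt_add hr hs).1
  zero_mem' := by
    have := (regAt_algebraMap c (0 : k[X])).1
    simpa using this
  neg_mem' := fun hr => (regAt_neg hr).1
  mem_or_inv_mem' := fun r => by
    by_cases hr : RegAt c r
    · exact Or.inl hr
    · exact Or.inr (regAt_inv_of_num (num_eval_ne_zero_of_not_regAt hr)).1

theorem mem_placeRing {c : k} {r : RatFunc k} : r ∈ placeRing c ↔ RegAt c r := Iff.rfl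

/-- evaluation at `T = c`. -/
noncomputable def placeMap (c : k) : placeRing c →+* k where
  toFun r := evalAt c (r : RatFunc k)
  map_one' := by
    have := (regAt_algebraMap c (1 : k[X])).2
    simpa using this
  map_mul' := fun r s => (regAt_mul r.2 s.2).2
  map_zero' := by
    have := (regAt_algebraMap c (0 : k[X])).2
    simpa using this
  map_add' := fun r s => (regAt_add r.2 s.2).2

theorem placeMap_apply (c : k) (r : placeRing c) : placeMap c r = evalAt c (r : RatFunc k) := rfl

theorem placeMap_eq_zero_iff (c : k) (a : placeRing c) :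
    placeMap c a = 0 ↔ (placeRing c).valuation (a : RatFunc k) < 1 := by
  constructor
  · intro h0
    rcases (placeRing c).valuation_lt_one_or_eq_one a with h | h
    · exact h
    · exfalso
      have hu := ((placeRing c).valuation_eq_one_iff a).2 h
      have := hu.map (placeMap c)
      rw [h0] at this
      exact not_isUnit_zero this
  · intro hv
    by_contra h0
    have hnum : (a : RatFunc k).num.eval c ≠ 0 := by
      intro h
      apply h0
      rw [placeMap_apply, evalAt, h, zero_div]
    have hinv : (a : RatFunc k)⁻¹ ∈ placeRing c := (regAt_inv_of_num hnum).1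
    rw [← (placeRing c).valuation_le_one_iff, map_inv₀] at hinv
    have ha0 : (placeRing c).valuation (a : RatFunc k) ≠ 0 := by
      intro h
      rw [h, inv_zero] at hinv
      rw [map_eq_zero] at h
      apply h0
      rw [show a = 0 from Subtype.ext h, map_zero]
    have := (inv_le_one₀ (zero_lt_iff.2 ha0)).1 hinv
    exact absurd hv (not_lt.2 this)

end Fermat.Agent.S52.Spec
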