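import Fermat.Agent.S52.Spec.Red
import Fermat.Agent.S52.Spec.Place

/-!
# S52/Spec: specialisation homomorphism at `T = c` for `y² = x³ + A(T) x + B(T)` over `k(T)`,
`A, B ∈ k[T]`, at a point `c` of good reduction; compatibility with a coefficient homomorphism.
-/

set_option autoImplicit false
set_option linter.unusedSectionVars false

namespace Fermat.Agent.S52.Spec

open Polynomial WeierstrassCurve

variable {k : Type*} [Field k] [DecidableEq k] [DecidableEq (RatFunc k)]

/-- a polynomial as an element of the local ring at `c`. -/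
noncomputable def polyO (c : k) (p : k[X]) : placeRing c :=
  ⟨algebraMap k[X] (RatFunc k) p, (regAt_algebraMap c p).1⟩

theorem coe_polyO (c : k) (p : k[X]) :
    ((polyO c p : placeRing c) : RatFunc k) = algebraMap k[X] (RatFunc k) p := rfl

theorem placeMap_polyO (c : k) (p : k[X]) : placeMap c (polyO c p) = p.eval c :=
  (regAt_algebraMap c p).2

/-- **specialisation at `T = c`**. -/
noncomputable def spec (A B : k[X]) (c : k) {a b : k} (ha : A.eval c = a) (hb : B.eval c = b)
    (hΔ : (shortW a b).Δ ≠ 0) :
    SPt (algebraMap k[X] (RatFunc k) A) (algebraMap k[X] (RatFunc k) B) →+ SPt a b :=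
  ((shortMap (RingHom.id k) (A := placeMap c (polyO c A)) (B := placeMap c (polyO c B))
      (by rw [placeMap_polyO, RingHom.id_apply, ha])
      (by rw [placeMap_polyO, RingHom.id_apply, hb])).comp
    (red (placeMap_eq_zero_iff c) (polyO c A) (polyO c B)
      (by rw [placeMap_polyO, placeMap_polyO, ha, hb]; exact hΔ))).comp
    (shortMap (RingHom.id (RatFunc k)) (coe_polyO c A).symm (coe_polyO c B).symm)

variable {A B : k[X]} {c a b : k} (ha : A.eval c = a) (hb : B.eval c = b)
  (hΔ : (shortW a b).Δ ≠ 0)

theorem regAt_y {x y : RatFunc k}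
    (h : (shortW (algebraMap k[X] (RatFunc k) A) (algebraMap k[X] (RatFunc k) B)).toAffine.Nonsingular
      x y) (hx : RegAt c x) : RegAt c y :=
  y_mem (placeRing c) (A := polyO c A) (B := polyO c B) (nonsingular_short.1 h).1 hx

theorem spec_some {x y : RatFunc k}
    (h : (shortW (algebraMap k[X] (RatFunc k) A) (algebraMap k[X] (RatFunc k) B)).toAffine.Nonsingular
      x y) (hx : RegAt c x) :
    ∃ h', spec A B c ha hb hΔ (.some x y h) = .some (evalAt c x) (evalAt c y) h' := by
  have hy := regAt_y (c := c) h hx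
  obtain ⟨h', e⟩ := red_coe (A := polyO c A) (B := polyO c B)
    (by rw [placeMap_polyO, placeMap_polyO, ha, hb]; exact hΔ) (placeMap_eq_zero_iff c)
    (nonsingular_short_map (RingHom.id (RatFunc k)) (coe_polyO c A).symm (coe_polyO c B).symm h)
    ⟨x, hx⟩ ⟨y, hy⟩ rfl rfl
  refine ⟨nonsingular_short_map (RingHom.id k)
      (by rw [placeMap_polyO, RingHom.id_apply, ha])
      (by rw [placeMap_polyO, RingHom.id_apply, hb]) h', ?_⟩
  rw [spec, AddMonoidHom.comp_apply, AddMonoidHom.comp_apply, shortMap_some, e, shortMap_some]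
  rfl

theorem spec_some_of_not_regAt {x y : RatFunc k}
    (h : (shortW (algebraMap k[X] (RatFunc k) A) (algebraMap k[X] (RatFunc k) B)).toAffine.Nonsingular
      x y) (hx : ¬ RegAt c x) : spec A B c ha hb hΔ (.some x y h) = 0 := by
  rw [spec, AddMonoidHom.comp_apply, AddMonoidHom.comp_apply, shortMap_some,
    red_not_mem _ _ _ hx, map_zero]

/-- specialisation is injective on `n`-torsion if `n ≠ 0` in `k`. -/
theorem eq_zero_of_spec_eq_zero {n : ℕ} (hn : (n : k) ≠ 0)
    (P : SPt (algebraMap k[X] (RatFunc k) A) (algebraMap k[X] (RatFunc k) B))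
    (hnP : n • P = 0) (hP : spec A B c ha hb hΔ P = 0) : P = 0 := by
  rw [spec, AddMonoidHom.comp_apply, AddMonoidHom.comp_apply] at hP
  have h1 := shortMap_injective _ _ _ (hP.trans (map_zero _).symm)
  have h2 := eq_zero_of_red_eq_zero (A := polyO c A) (B := polyO c B) _ _ hn _
    (by rw [← map_nsmul, hnP, map_zero]) h1
  exact shortMap_injective _ _ _ (h2.trans (map_zero _).symm)

end Fermat.Agent.S52.Spec
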