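import Fermat.Agent.S52.Spec.Slope
import Fermat.Agent.S05.KernelRed

/-!
# S52/Spec: the reduction homomorphism of `y² = x³ + A x + B` with good reduction
over a valuation subring `O` of a field `K`, with "residue map" `π : O →+* κ`
(`π a = 0 ↔ v a < 1`).
-/

set_option autoImplicit false
set_option linter.unusedSectionVars false

namespace Fermat.Agent.S52.Spec

open WeierstrassCurve

variable {K κ : Type*} [Field K] [Field κ] [DecidableEq K] [DecidableEq κ]
  (O : ValuationSubring K) (π : O →+* κ)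

theorem mem_of_sq_mem {y : K} (h : y ^ 2 ∈ O) : y ∈ O := by
  rw [← O.valuation_le_one_iff] at h ⊢
  rw [map_pow] at h
  by_contra hy
  exact absurd h (not_le.2 (one_lt_pow₀ (not_le.1 hy) two_ne_zero))

theorem y_mem {A B : O} {x y : K} (h : y ^ 2 = x ^ 3 + A * x + B) (hx : x ∈ O) : y ∈ O := by
  apply mem_of_sq_mem
  rw [h]
  exact add_mem (add_mem (pow_mem hx 3) (mul_mem A.2 hx)) B.2

variable {O π}

theorem inv_mem_of_ne_zero (hπ : ∀ a : O, π a = 0 ↔ O.valuation (a : K) < 1) {a : O}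
    (ha : π a ≠ 0) : (a : K)⁻¹ ∈ O := by
  rw [← O.valuation_le_one_iff, map_inv₀]
  rcases O.valuation_lt_one_or_eq_one a with h | h
  · exact absurd ((hπ a).2 h) ha
  · rw [h, inv_one]

theorem inv_mem_of_not_mem (hπ : ∀ a : O, π a = 0 ↔ O.valuation (a : K) < 1) {x : K}
    (hx : x ∉ O) : ∃ z : O, x * z = 1 ∧ π z = 0 := by
  have hx0 : x ≠ 0 := fun h => hx (h ▸ O.zero_mem)
  have hv : 1 < O.valuation x := by
    rw [← not_le, O.valuation_le_one_iff]; exact hx
  have hv' : O.valuation x⁻¹ < 1 := by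
    rw [map_inv₀]; exact inv_lt_one_of_one_lt₀ hv
  refine ⟨⟨x⁻¹, (O.valuation_le_one_iff _).1 hv'.le⟩, mul_inv_cancel₀ hx0, ?_⟩
  rw [hπ]
  exact hv'

theorem nonsingular_red {A B : O} (hΔ : (shortW (π A) (π B)).Δ ≠ 0) {x y : O}
    (h : (shortW (A : K) (B : K)).toAffine.Nonsingular (x : K) (y : K)) :
    (shortW (π A) (π B)).toAffine.Nonsingular (π x) (π y) := by
  rw [← Affine.equation_iff_nonsingular_of_Δ_ne_zero hΔ, equation_short]
  have h1 := (nonsingular_short.1 h).1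
  have h2 : y ^ 2 = x ^ 3 + A * x + B := by
    apply Subtype.ext
    push_cast
    exact h1
  have := congrArg π h2
  simpa only [map_add, map_mul, map_pow] using this

open Classical in
/-- the reduction map (underlying function). -/
noncomputable def redFun (A B : O) (hΔ : (shortW (π A) (π B)).Δ ≠ 0) :
    SPt (A : K) (B : K) → SPt (π A) (π B)
  | .zero => 0
  | .some x y h =>
    if hx : x ∈ O then
      .some (π ⟨x, hx⟩) (π ⟨y, y_mem O (nonsingular_short.1 h).1 hx⟩)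
        (nonsingular_red (x := ⟨x, hx⟩) (y := ⟨y, y_mem O (nonsingular_short.1 h).1 hx⟩) hΔ h)
    else 0

variable {A B : O} (hΔ : (shortW (π A) (π B)).Δ ≠ 0)

theorem redFun_zero : redFun A B hΔ 0 = 0 := rfl

theorem redFun_coe {x y : K} (h : (shortW (A : K) (B : K)).toAffine.Nonsingular x y)
    (x' y' : O) (hx : x = x') (hy : y = y') :
    ∃ h', redFun A B hΔ (.some x y h) = .some (π x') (π y') h' := by
  subst hx hy
  refine ⟨nonsingular_red hΔ h, ?_⟩
  simp only [redFun, SetLike.coe_mem, dite_true, Subtype.coe_eta]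

theorem redFun_not_mem {x y : K} (h : (shortW (A : K) (B : K)).toAffine.Nonsingular x y)
    (hx : x ∉ O) : redFun A B hΔ (.some x y h) = 0 := by
  simp only [redFun, hx, dite_false]

theorem not_mem_of_redFun {x y : K} (h : (shortW (A : K) (B : K)).toAffine.Nonsingular x y)
    (h0 : redFun A B hΔ (.some x y h) = 0) : x ∉ O := by
  intro hx
  obtain ⟨h', e⟩ := redFun_coe hΔ h ⟨x, hx⟩ ⟨y, y_mem O (nonsingular_short.1 h).1 hx⟩ rfl rfl
  rw [e] at h0
  exact absurd h0 (by intro h; cases h)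

theorem redFun_neg (P : SPt (A : K) (B : K)) : redFun A B hΔ (-P) = -redFun A B hΔ P := by
  rcases P with _ | ⟨x, y, h⟩
  · change redFun A B hΔ (-0) = -(0 : SPt (π A) (π B))
    rw [neg_zero, neg_zero]; rfl
  · obtain ⟨h', e⟩ := neg_some_short h
    rw [e]
    by_cases hx : x ∈ O
    · have hy := y_mem O (nonsingular_short.1 h).1 hx
      obtain ⟨h1, e1⟩ := redFun_coe hΔ h ⟨x, hx⟩ ⟨y, hy⟩ rfl rfl
      obtain ⟨h2, e2⟩ := redFun_coe hΔ h' ⟨x, hx⟩ (-⟨y, hy⟩) rfl rfl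
      obtain ⟨h3, e3⟩ := neg_some_short h1
      rw [e1, e2, e3]
      simp only [map_neg]
    · rw [redFun_not_mem hΔ h hx, redFun_not_mem hΔ h' hx, neg_zero]

/-- additivity on integral points. -/
theorem redFun_add_int (hπ : ∀ a : O, π a = 0 ↔ O.valuation (a : K) < 1) (x₁ y₁ x₂ y₂ : O)
    (h₁ : (shortW (A : K) (B : K)).toAffine.Nonsingular (x₁ : K) (y₁ : K))
    (h₂ : (shortW (A : K) (B : K)).toAffine.Nonsingular (x₂ : K) (y₂ : K)) :
    redFun A B hΔ (.some _ _ h₁ + .some _ _ h₂) =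
      redFun A B hΔ (.some _ _ h₁) + redFun A B hΔ (.some _ _ h₂) := by
  obtain ⟨k₁, e₁⟩ := redFun_coe hΔ h₁ x₁ y₁ rfl rfl
  obtain ⟨k₂, e₂⟩ := redFun_coe hΔ h₂ x₂ y₂ rfl rfl
  rw [e₁, e₂]
  by_cases hbar : π x₁ = π x₂ ∧ π y₁ = -π y₂
  · rw [add_eq_zero_of k₁ k₂ hbar.1 hbar.2]
    by_cases hne : (x₁ : K) = x₂ ∧ (y₁ : K) = -y₂
    · rw [add_eq_zero_of h₁ h₂ hne.1 hne.2]; rfl
    · obtain ⟨l, hl1, hl2⟩ := exists_slope (nonsingular_short.1 h₁).1 (nonsingular_short.1 h₂).1 hne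
      obtain ⟨h₃, e₃⟩ := add_some_of_slope h₁ h₂ hne hl1 hl2
      rw [e₃]
      apply redFun_not_mem
      intro hmem
      have hl : l ∈ O := by
        apply mem_of_sq_mem
        have : l ^ 2 = (l ^ 2 - x₁ - x₂) + x₁ + x₂ := by ring
        rw [this]
        exact add_mem (add_mem hmem x₁.2) x₂.2
      lift l to O using hl
      have hl1' : l * (x₁ - x₂) = y₁ - y₂ := by
        apply Subtype.ext; push_cast; exact hl1
      have hl2' : l * (y₁ + y₂) = x₁ ^ 2 + x₁ * x₂ + x₂ ^ 2 + A := by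
        apply Subtype.ext; push_cast; exact hl2
      have g1 := congrArg π hl1'
      have g2 := congrArg π hl2'
      simp only [map_add, map_mul, map_pow, map_sub] at g1 g2
      rcases (nonsingular_short.1 k₁).2 with h | h
      · apply h
        rw [hbar.2, hbar.1] at g2
        rw [hbar.1]
        linear_combination -g2
      · apply h
        rw [hbar.1] at g1
        linear_combination -g1 + hbar.2
  · have hne : ¬ ((x₁ : K) = x₂ ∧ (y₁ : K) = -y₂) := by
      rintro ⟨h1, h2⟩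
      apply hbar
      have h1' : x₁ = x₂ := Subtype.ext h1
      have h2' : y₁ = -y₂ := by apply Subtype.ext; push_cast; exact h2
      rw [h1', h2', map_neg]
      exact ⟨rfl, rfl⟩
    obtain ⟨l, hl1, hl2⟩ := exists_slope (nonsingular_short.1 h₁).1 (nonsingular_short.1 h₂).1 hne
    obtain ⟨h₃, e₃⟩ := add_some_of_slope h₁ h₂ hne hl1 hl2
    have hl : l ∈ O := by
      by_cases hx : π x₁ = π x₂
      · have hy : π (y₁ + y₂) ≠ 0 := by
          rw [map_add]
          intro h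
          exact hbar ⟨hx, eq_neg_of_add_eq_zero_left h⟩
        have hinv := inv_mem_of_ne_zero hπ hy
        have h0 : ((y₁ + y₂ : O) : K) ≠ 0 := by
          intro h
          apply hy
          rw [show y₁ + y₂ = 0 from Subtype.ext h, map_zero]
        have : l = (x₁ ^ 2 + x₁ * x₂ + x₂ ^ 2 + A : O) * ((y₁ + y₂ : O) : K)⁻¹ := by
          rw [eq_mul_inv_iff_mul_eq₀ h0]
          push_cast
          exact hl2
        rw [this]
        exact mul_mem (SetLike.coe_mem _) hinv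
      · have hy : π (x₁ - x₂) ≠ 0 := by
          rw [map_sub]
          exact sub_ne_zero.2 hx
        have hinv := inv_mem_of_ne_zero hπ hy
        have h0 : ((x₁ - x₂ : O) : K) ≠ 0 := by
          intro h
          apply hy
          rw [show x₁ - x₂ = 0 from Subtype.ext h, map_zero]
        have : l = (y₁ - y₂ : O) * ((x₁ - x₂ : O) : K)⁻¹ := by
          rw [eq_mul_inv_iff_mul_eq₀ h0]
          push_cast
          exact hl1
        rw [this]
        exact mul_mem (SetLike.coe_mem _) hinv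
    lift l to O using hl
    have hl1' : l * (x₁ - x₂) = y₁ - y₂ := by
      apply Subtype.ext; push_cast; exact hl1
    have hl2' : l * (y₁ + y₂) = x₁ ^ 2 + x₁ * x₂ + x₂ ^ 2 + A := by
      apply Subtype.ext; push_cast; exact hl2
    have g1 := congrArg π hl1'
    have g2 := congrArg π hl2'
    simp only [map_add, map_mul, map_pow, map_sub] at g1 g2
    obtain ⟨k₃, f₃⟩ := add_some_of_slope k₁ k₂ hbar g1 g2
    obtain ⟨k₄, e₄⟩ := redFun_coe hΔ h₃ (l ^ 2 - x₁ - x₂) (-(l * (l ^ 2 - x₁ - x₂ - x₁) + y₁))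
      (by push_cast; rfl) (by push_cast; rfl)
    rw [e₃, e₄, f₃]
    simp only [map_add, map_mul, map_pow, map_sub, map_neg]

/-- the kernel of reduction is closed under addition. -/
theorem redFun_ker_add (hπ : ∀ a : O, π a = 0 ↔ O.valuation (a : K) < 1)
    (P Q : SPt (A : K) (B : K)) (hP : redFun A B hΔ P = 0) (hQ : redFun A B hΔ Q = 0) :
    redFun A B hΔ (P + Q) = 0 := by
  rcases P with _ | ⟨x₁, y₁, h₁⟩
  · change redFun A B hΔ (0 + Q) = 0
    rwa [zero_add]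
  rcases Q with _ | ⟨x₂, y₂, h₂⟩
  · change redFun A B hΔ (_ + 0) = 0
    rwa [add_zero]
  have hx₁ := not_mem_of_redFun hΔ h₁ hP
  have hx₂ := not_mem_of_redFun hΔ h₂ hQ
  obtain ⟨c, hc, hS, hT, hU⟩ := S05.addSub (Affine.Point.some x₁ y₁ h₁ : SPt (A : K) (B : K))
    (Affine.Point.some x₂ y₂ h₂)
  generalize (Affine.Point.some x₁ y₁ h₁ - Affine.Point.some x₂ y₂ h₂ : SPt (A : K) (B : K)) = D
    at hS hT hU
  generalize (Affine.Point.some x₁ y₁ h₁ + Affine.Point.some x₂ y₂ h₂ : SPt (A : K) (B : K)) = R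
    at hS hT hU ⊢
  rcases R with _ | ⟨x₃, y₃, h₃⟩
  · rfl
  apply redFun_not_mem
  intro hx₃
  simp only [S05.pX_some, S05.pZ_some, S05.asS, S05.asT, S05.asU] at hS hT hU
  have hb2 : (shortW (A : K) (B : K)).toAffine.b₂ = 0 := by
    simp [shortW, WeierstrassCurve.b₂]
  have hb4 : (shortW (A : K) (B : K)).toAffine.b₄ = 2 * A := by
    simp [shortW, WeierstrassCurve.b₄]
  have hb6 : (shortW (A : K) (B : K)).toAffine.b₆ = 4 * B := by
    simp [shortW, WeierstrassCurve.b₆]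
  have hb8 : (shortW (A : K) (B : K)).toAffine.b₈ = -(A : K) ^ 2 := by
    simp [shortW, WeierstrassCurve.b₈]
  rw [hb4, hb6, hb8] at hS
  rw [hb2, hb4, hb6] at hT
  obtain ⟨z₁, hz₁, hπ₁⟩ := inv_mem_of_not_mem hπ hx₁
  obtain ⟨z₂, hz₂, hπ₂⟩ := inv_mem_of_not_mem hπ hx₂
  have heq : ((x₁ * 1 + 1 * x₂) ^ 2 - 4 * (x₁ * x₂) * (1 * 1)) * x₃ ^ 2
      - (2 * (x₁ * 1 + 1 * x₂) * (x₁ * x₂) + 0 * (x₁ * x₂) * (1 * 1)
          + 2 * A * (x₁ * 1 + 1 * x₂) * (1 * 1) + 4 * B * (1 * 1) ^ 2) * x₃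
      + ((x₁ * x₂) ^ 2 - 2 * A * (x₁ * x₂) * (1 * 1) - 4 * B * (x₁ * 1 + 1 * x₂) * (1 * 1)
          - -(A : K) ^ 2 * (1 * 1) ^ 2) = 0 := by
    apply mul_left_cancel₀ hc
    linear_combination (-x₃ ^ 2) * hU + x₃ * hT - hS
  have hs : x₁ * x₂ * ((z₁ : K) * z₂) = 1 := by
    linear_combination (x₂ * z₂) * hz₁ + hz₂
  have ht : (x₁ + x₂) * ((z₁ : K) * z₂) = z₁ + z₂ := by
    linear_combination (z₂ : K) * hz₁ + (z₁ : K) * hz₂
  have key : (((z₁ : K) + z₂) ^ 2 - 4 * (z₁ * z₂)) * x₃ ^ 2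
      - (2 * ((z₁ : K) + z₂) + 2 * A * (z₁ + z₂) * (z₁ * z₂) + 4 * B * (z₁ * z₂) ^ 2) * x₃
      + (1 - 2 * A * (z₁ * z₂) - 4 * B * (z₁ + z₂) * (z₁ * z₂) + (A : K) ^ 2 * (z₁ * z₂) ^ 2)
      = 0 := by
    linear_combination ((z₁ : K) * z₂) ^ 2 * heq
      + (4 * ((z₁ : K) * z₂) * x₃ ^ 2 + 2 * (x₁ + x₂) * ((z₁ : K) * z₂) * x₃
          - (x₁ * x₂ * ((z₁ : K) * z₂) + 1) + 2 * A * ((z₁ : K) * z₂)) * hs
      + (-((x₁ + x₂) * ((z₁ : K) * z₂) + ((z₁ : K) + z₂)) * x₃ ^ 2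
          + (2 + 2 * A * ((z₁ : K) * z₂)) * x₃ + 4 * B * ((z₁ : K) * z₂)) * ht
  lift x₃ to O using hx₃
  have key' : ((z₁ + z₂) ^ 2 - 4 * (z₁ * z₂)) * x₃ ^ 2
      - (2 * (z₁ + z₂) + 2 * A * (z₁ + z₂) * (z₁ * z₂) + 4 * B * (z₁ * z₂) ^ 2) * x₃
      + (1 - 2 * A * (z₁ * z₂) - 4 * B * (z₁ + z₂) * (z₁ * z₂) + A ^ 2 * (z₁ * z₂) ^ 2) = 0 := by
    apply Subtype.ext; push_cast; exact key
  have g := congrArg π key'
  simp only [map_add, map_mul, map_pow, map_sub, hπ₁, hπ₂, map_one, map_zero] at g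
  simp at g

theorem redFun_add (hπ : ∀ a : O, π a = 0 ↔ O.valuation (a : K) < 1)
    (P Q : SPt (A : K) (B : K)) :
    redFun A B hΔ (P + Q) = redFun A B hΔ P + redFun A B hΔ Q := by
  -- integral points
  have hint : ∀ P Q : SPt (A : K) (B : K), redFun A B hΔ P ≠ 0 → redFun A B hΔ Q ≠ 0 →
      redFun A B hΔ (P + Q) = redFun A B hΔ P + redFun A B hΔ Q := by
    intro P Q hP hQ
    rcases P with _ | ⟨x₁, y₁, h₁⟩
    · exact absurd rfl hP
    rcases Q with _ | ⟨x₂, y₂, h₂⟩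
    · exact absurd rfl hQ
    have hx₁ : x₁ ∈ O := by
      by_contra h; exact hP (redFun_not_mem hΔ h₁ h)
    have hx₂ : x₂ ∈ O := by
      by_contra h; exact hQ (redFun_not_mem hΔ h₂ h)
    have hy₁ := y_mem O (nonsingular_short.1 h₁).1 hx₁
    have hy₂ := y_mem O (nonsingular_short.1 h₂).1 hx₂
    exact redFun_add_int hΔ hπ ⟨x₁, hx₁⟩ ⟨y₁, hy₁⟩ ⟨x₂, hx₂⟩ ⟨y₂, hy₂⟩ h₁ h₂
  -- mixed case
  have hmix : ∀ P Q : SPt (A : K) (B : K), redFun A B hΔ P ≠ 0 → redFun A B hΔ Q = 0 →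
      redFun A B hΔ (P + Q) = redFun A B hΔ P + redFun A B hΔ Q := by
    intro P Q hP hQ
    have hS : redFun A B hΔ (P + Q) ≠ 0 := by
      intro h0
      apply hP
      have := redFun_ker_add hΔ hπ (P + Q) (-Q) h0 (by rw [redFun_neg, hQ, neg_zero])
      rwa [add_neg_cancel_right] at this
    have h1 := hint (P + Q) (-P) hS (by rw [redFun_neg]; exact neg_ne_zero.2 hP)
    rw [show P + Q + -P = Q by abel, hQ, redFun_neg] at h1
    rw [hQ, add_zero]
    exact (add_neg_eq_zero.1 h1.symm)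
  by_cases hP : redFun A B hΔ P = 0
  · by_cases hQ : redFun A B hΔ Q = 0
    · rw [redFun_ker_add hΔ hπ P Q hP hQ, hP, hQ, add_zero]
    · rw [add_comm P Q, hmix Q P hQ hP, add_comm]
  · by_cases hQ : redFun A B hΔ Q = 0
    · exact hmix P Q hP hQ
    · exact hint P Q hP hQ

/-- **the reduction homomorphism**. -/
noncomputable def red (hπ : ∀ a : O, π a = 0 ↔ O.valuation (a : K) < 1) (A B : O)
    (hΔ : (shortW (π A) (π B)).Δ ≠ 0) : SPt (A : K) (B : K) →+ SPt (π A) (π B) where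
  toFun := redFun A B hΔ
  map_zero' := rfl
  map_add' := redFun_add hΔ hπ

variable (hπ : ∀ a : O, π a = 0 ↔ O.valuation (a : K) < 1)

theorem red_coe {x y : K} (h : (shortW (A : K) (B : K)).toAffine.Nonsingular x y)
    (x' y' : O) (hx : x = x') (hy : y = y') :
    ∃ h', red hπ A B hΔ (.some x y h) = .some (π x') (π y') h' :=
  redFun_coe hΔ h x' y' hx hy

theorem red_not_mem {x y : K} (h : (shortW (A : K) (B : K)).toAffine.Nonsingular x y)
    (hx : x ∉ O) : red hπ A B hΔ (.some x y h) = 0 :=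
  redFun_not_mem hΔ h hx

/-- the reduction homomorphism is injective on `n`-torsion, `n` invertible in the residue field. -/
theorem eq_zero_of_red_eq_zero {n : ℕ} (hn : (n : κ) ≠ 0) (P : SPt (A : K) (B : K))
    (hnP : n • P = 0) (hP : red hπ A B hΔ P = 0) : P = 0 := by
  rcases P with _ | ⟨x, y, h⟩
  · rfl
  exfalso
  have hx : x ∉ O := not_mem_of_redFun hΔ h hP
  have hv : O.valuation (n : K) = 1 := by
    rcases O.valuation_lt_one_or_eq_one (n : O) with h1 | h1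
    · exact absurd ((hπ _).2 h1) (by rwa [map_natCast])
    · exact_mod_cast h1
  obtain ⟨hb2, hb4, hb6, hb8⟩ := S05.kernelRed_b_mem (W := (shortW (A : K) (B : K)).toAffine) O
    (by simp [shortW, O.zero_mem]) (by simp [shortW, O.zero_mem]) (by simp [shortW, O.zero_mem])
    (by simp [shortW]) (by simp [shortW])
  exact S05.kernelRed_nsmul_some_ne_zero O hb2 hb4 hb6 hb8 hv h hx hnP

end Fermat.Agent.S52.Spec
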